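/-
Project MW (S17), leaf [REF] (helper29): the linear algebra behind the Galois descent of `L(k∞)`
(Mathlib only; prefix `mw_ref_`).

* `mw_ref_mem_of_det_ne_zero`, `mw_ref_mem_of_vandermonde`: if all the combinations
  `∑ₘ tⱼ^m • yₘ` (`tⱼ` pairwise distinct) lie in a subspace `V`, so do the `yₘ`;
* `mw_ref_exists_basis`: a spanning set of a finite dimensional subspace contains a basis,
  indexed by `Fin (r + 1)`.
-/
import Mathlib

set_option autoImplicit false

namespace Fermat.Agent.MW

theorem mw_ref_mem_of_det_ne_zero {K M : Type*} [Field K] [AddCommGroup M] [Module K M] {d : ℕ}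
    (A : Matrix (Fin d) (Fin d) K) (hA : A.det ≠ 0) (V : Submodule K M) (y : Fin d → M)
    (h : ∀ j, ∑ m, A j m • y m ∈ V) (m : Fin d) : y m ∈ V := by
  have hinv : A⁻¹ * A = 1 := Matrix.nonsing_inv_mul A (isUnit_iff_ne_zero.mpr hA)
  have key : y m = ∑ j, A⁻¹ m j • ∑ m', A j m' • y m' := by
    simp_rw [Finset.smul_sum, smul_smul]
    rw [Finset.sum_comm]
    simp_rw [← Finset.sum_smul, ← Matrix.mul_apply, hinv, Matrix.one_apply, ite_smul, one_smul,
      zero_smul]
    simp
  rw [key]
  exact V.sum_mem fun j _ => V.smul_mem _ (h j)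

theorem mw_ref_mem_of_vandermonde {K M : Type*} [Field K] [AddCommGroup M] [Module K M] {d : ℕ}
    (t : Fin d → K) (ht : Function.Injective t) (V : Submodule K M) (y : Fin d → M)
    (h : ∀ j, ∑ m : Fin d, t j ^ (m : ℕ) • y m ∈ V) (m : Fin d) : y m ∈ V :=
  mw_ref_mem_of_det_ne_zero (Matrix.vandermonde t) (Matrix.det_vandermonde_ne_zero_iff.mpr ht) V y
    (fun j => by simpa [Matrix.vandermonde_apply] using h j) m

theorem mw_ref_exists_basis {K M : Type*} [Field K] [AddCommGroup M] [Module K M]
    (V : Submodule K M) [FiniteDimensional K V] (S : Set M) (hS : Submodule.span K S = V)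
    {r : ℕ} (hr : Module.finrank K V = r + 1) :
    ∃ x : Fin (r + 1) → M, (∀ a, x a ∈ S) ∧ LinearIndependent K x ∧
      Submodule.span K (Set.range x) = V := by
  classical
  have hSV : S ⊆ V := fun s hs => hS ▸ Submodule.subset_span hs
  -- the spanning set inside `V`
  set S' : Set V := {v | (v : M) ∈ S} with hS'
  have hS'top : Submodule.span K S' = ⊤ := by
    apply Submodule.map_injective_of_injective V.injective_subtype
    rw [Submodule.map_span, Submodule.map_subtype_top]
    have : (V.subtype '' S') = S := by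
      ext s
      constructor
      · rintro ⟨v, hv, rfl⟩
        exact hv
      · intro hs
        exact ⟨⟨s, hSV hs⟩, hs, rfl⟩
    rw [this, hS]
  obtain ⟨b, hbS, hbspan, hbli⟩ := exists_linearIndependent K S'
  have hbtop : ⊤ ≤ Submodule.span K (Set.range fun v : b => (v : V)) := by
    rw [Subtype.range_coe, hbspan, hS'top]
  let B : Module.Basis b K V := Module.Basis.mk hbli hbtop
  have : Fintype b := FiniteDimensional.fintypeBasisIndex B
  have hcard : Fintype.card b = r + 1 := by
    rw [← Module.finrank_eq_card_basis B, hr]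
  let e : Fin (r + 1) ≃ b := (Fintype.equivFinOfCardEq hcard).symm
  refine ⟨fun a => ((e a : V) : M), fun a => hbS (e a).2, ?_, ?_⟩
  · have h1 : LinearIndependent K fun a : Fin (r + 1) => ((e a : b) : V) :=
      hbli.comp e e.injective
    exact h1.map' V.subtype (Submodule.ker_subtype V)
  · have hrange : Set.range (fun a : Fin (r + 1) => ((e a : V) : M)) = V.subtype '' b := by
      ext s
      constructor
      · rintro ⟨a, rfl⟩
        exact ⟨(e a : V), (e a).2, rfl⟩
      · rintro ⟨v, hv, rfl⟩
        exact ⟨e.symm ⟨v, hv⟩, by simp⟩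
    rw [hrange, ← Submodule.map_span, hbspan, hS'top, Submodule.map_subtype_top]

end Fermat.Agent.MW
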